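import Fermat.Agent.ProjectiveRegularity.Hyperplane

/-!
# Matrix coefficients

A coefficient `⟪y, Q v⟫` is the length of `Q v` times the sine of its angle with the hyperplane
orthogonal to `y`, and the last factors alone keep this angle from being small.
-/

set_option autoImplicit false

noncomputable section

namespace FA.MatrixCoefficient

open MeasureTheory Filter Topology Module Set
open FA.FurstenbergLyapunov FA.FurstenbergKifer FA.GuivarchRaugi FA.LePage
open FA.ProjectiveRegularity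
open scoped ENNReal RealInnerProductSpace

variable {E : Type*} [NormedAddCommGroup E] [InnerProductSpace ℝ E] [FiniteDimensional ℝ E]
  [MeasurableSpace E] [BorelSpace E] [Nontrivial E]

omit [MeasurableSpace E] [BorelSpace E] in
/-- The coefficient of general vectors through the unit ones. -/
theorem inner_apply_eq {A : E →L[ℝ] E} (hA : A ∈ unitDet E) {y v : E} (hy : y ≠ 0) (hv : v ≠ 0) :
    ⟪y, A v⟫ = ‖y‖ * ‖A v‖ * ⟪(dir y : E), (act A (dir v) : E)⟫ := by
  have h := apply_ne_zero hA hv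
  have e : act A (dir v) = dir (A v) := by
    rw [act, coe_dir hv, map_smul, dir_smul (inv_pos.2 (norm_pos_iff.2 hv)) h]
  rw [e, coe_dir hy, coe_dir h, real_inner_smul_left, real_inner_smul_right]
  have := norm_ne_zero_iff.2 h
  have := norm_ne_zero_iff.2 hy
  field_simp

omit [MeasurableSpace E] [BorelSpace E] in
/-- The logarithm of a coefficient when the image is off the hyperplane. -/
theorem abs_log_inner_sub_le {A : E →L[ℝ] E} (hA : A ∈ unitDet E) {y v : E} (hy : y ≠ 0)
    (hv : v ≠ 0) {a : ℝ}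
    (h : Real.exp (-a) < |⟪(dir y : E), (act A (dir v) : E)⟫|) :
    ⟪y, A v⟫ ≠ 0 ∧ |Real.log |⟪y, A v⟫| - Real.log ‖A v‖| ≤ |Real.log ‖y‖| + a := by
  set c := ⟪(dir y : E), (act A (dir v) : E)⟫
  have hc : 0 < |c| := (Real.exp_pos _).trans h
  have hc0 : c ≠ 0 := abs_pos.1 hc
  have hy' := norm_ne_zero_iff.2 hy
  have hAv := norm_ne_zero_iff.2 (apply_ne_zero hA hv)
  have e : ⟪y, A v⟫ = ‖y‖ * ‖A v‖ * c := inner_apply_eq hA hy hv
  refine ⟨e ▸ mul_ne_zero (mul_ne_zero hy' hAv) hc0, ?_⟩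
  have hc1 : |c| ≤ 1 := by
    simpa [c, norm_eq_of_mem_sphere] using
      abs_real_inner_le_norm (dir y : E) (act A (dir v) : E)
  rw [e, abs_mul, abs_mul, abs_norm, abs_norm, Real.log_mul (mul_ne_zero hy' hAv) hc.ne',
    Real.log_mul hy' hAv]
  have h1 : Real.log |c| ≤ 0 := Real.log_nonpos hc.le hc1
  have h2 : -a < Real.log |c| := (Real.lt_log_iff_exp_lt hc).2 h
  rw [abs_le]
  constructor <;> linarith [le_abs_self (Real.log ‖y‖), neg_abs_le (Real.log ‖y‖)]

variable {μ : Measure (E →L[ℝ] E)} [IsProbabilityMeasure μ] {ε γ η : ℝ}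

/-- **Large deviations of a coefficient.** -/
theorem decays_coefficient (hd : 2 ≤ finrank ℝ E) (hμ : ∀ᵐ A ∂μ, A ∈ unitDet E)
    (hsi : StronglyIrreducible μ.support) (hprox : Proximal μ.support) (hε : 0 < ε)
    (hexp : ExpMoment μ ε)
    (hγ : ∀ᵐ x ∂(Measure.infinitePi fun _ : ℕ => μ),
      Tendsto (fun n : ℕ => Real.log ‖randProd n x‖ / n) atTop (𝓝 γ)) (hη : 0 < η) :
    Decays fun (p : Sph E × Sph E) n => (Measure.infinitePi fun _ : ℕ => μ)
      {x | ⟪(p.1 : E), randProd n x (p.2 : E)⟫ = 0 ∨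
        (n : ℝ) * η ≤ |Real.log |⟪(p.1 : E), randProd n x (p.2 : E)⟫| - n * γ|} := by
  have hη' : 0 < η / 3 := by positivity
  refine Decays.of_eventually (((decays_apply hμ hsi hε hexp hγ hη').comp
    fun p : Sph E × Sph E => p.2).add (decays_hyperplane hd hμ hsi hprox hε hexp hη'))
    (fun _ _ => prob_le_one) ?_
  filter_upwards [eventually_gt_atTop 0] with n hn
  rintro ⟨y, v⟩
  refine (measure_mono_ae ?_).trans (measure_union_le _ _)
  filter_upwards [ae_all_unitDet μ hμ] with x hx (hev : ⟪(y : E), randProd n x (v : E)⟫ = 0 ∨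
    (n : ℝ) * η ≤ |Real.log |⟪(y : E), randProd n x (v : E)⟫| - n * γ|)
  by_contra hcon
  obtain ⟨h1, h2⟩ := not_or.1 hcon
  replace h1 : |Real.log ‖randProd n x (v : E)‖ - n * γ| < (n : ℝ) * (η / 3) := not_le.1 h1
  replace h2 : Real.exp (-(η / 3 * n)) < |⟪(y : E), (act (randProd n x) v : E)⟫| := not_le.1 h2
  have hdir : ∀ u : Sph E, dir (u : E) = u := fun u => Subtype.ext (by
    rw [coe_dir (sph_ne_zero u), norm_eq_of_mem_sphere u, inv_one, one_smul])
  obtain ⟨hne, hlog⟩ := abs_log_inner_sub_le (randProd_mem_unitDet hx n) (sph_ne_zero y)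
    (sph_ne_zero v) (a := η / 3 * n) (by rwa [hdir, hdir])
  rw [norm_eq_of_mem_sphere y, Real.log_one, abs_zero, zero_add] at hlog
  rcases hev with hev | hev
  · exact hne hev
  · have hn' : 0 < (n : ℝ) * η := mul_pos (Nat.cast_pos.2 hn) hη
    have := (hev.trans (abs_sub_le _ (Real.log ‖randProd n x (v : E)‖) _)).trans
      (add_le_add hlog h1.le)
    linarith

/-- **The last factors keep the direction off a hyperplane.** -/
theorem tendsto_measure_near_hyperplane (hd : 2 ≤ finrank ℝ E) (hμ : ∀ᵐ A ∂μ, A ∈ unitDet E)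
    (hsi : StronglyIrreducible μ.support) (hprox : Proximal μ.support) (hε : 0 < ε)
    (hexp : ExpMoment μ ε) {a : ℝ} (ha : 0 < a) (y v : Sph E) :
    Tendsto (fun n : ℕ => (Measure.infinitePi fun _ : ℕ => μ)
      {x | |⟪(y : E), (act (randProd n x) v : E)⟫| ≤ Real.exp (-(a * Real.sqrt n))})
      atTop (𝓝 0) := by
  obtain ⟨C, r, hC, hr, hr1, hb⟩ := decays_hyperplane hd hμ hsi hprox hε hexp (η := 1) one_pos
  set π := Measure.infinitePi fun _ : ℕ => μ with hπ
  set k : ℕ → ℕ := fun n => ⌊a * Real.sqrt n⌋₊ with hk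
  have hsq : Tendsto (fun n : ℕ => Real.sqrt n) atTop atTop :=
    Real.tendsto_sqrt_atTop.comp tendsto_natCast_atTop_atTop
  have hktop : Tendsto k atTop atTop :=
    tendsto_nat_floor_atTop.comp (hsq.const_mul_atTop ha)
  have hbound : ∀ᶠ n : ℕ in atTop,
      π {x | |⟪(y : E), (act (randProd n x) v : E)⟫| ≤ Real.exp (-(a * Real.sqrt n))} ≤
        ENNReal.ofReal (C * r ^ k n) := by
    filter_upwards [hsq.eventually_ge_atTop a] with n hn
    have hkle : (k n : ℝ) ≤ a * Real.sqrt n := Nat.floor_le (by positivity)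
    obtain ⟨m, hm⟩ : ∃ m, n = m + k n := ⟨n - k n, (Nat.sub_add_cancel (Nat.cast_le.1
      (hkle.trans ((mul_le_mul_of_nonneg_right hn (Real.sqrt_nonneg _)).trans_eq
        (Real.mul_self_sqrt (Nat.cast_nonneg n)))))).symm⟩
    set S := {w : Sph E | |⟪(y : E), (w : E)⟫| ≤ Real.exp (-(1 * (k n : ℝ)))}
    have hS : MeasurableSet S := (isClosed_le
      ((continuous_const.inner continuous_subtype_val).abs) continuous_const).measurableSet
    set T := {p : (E →L[ℝ] E) × (ℕ → E →L[ℝ] E) | act (randProd (k n) p.2) (act p.1 v) ∈ S}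
    have hT : MeasurableSet T := (measurable_act_pair ((measurable_randProd (k n)).comp
      measurable_snd) (measurable_act_pair measurable_fst measurable_const)) hS
    calc π {x | |⟪(y : E), (act (randProd n x) v : E)⟫| ≤ Real.exp (-(a * Real.sqrt n))}
        ≤ π ((fun x => (randProd m x, shift^[m] x)) ⁻¹' T) := by
          refine measure_mono_ae ?_
          filter_upwards [ae_all_unitDet μ hμ] with x hx
            (hev : |⟪(y : E), (act (randProd n x) v : E)⟫| ≤ Real.exp (-(a * Real.sqrt n)))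
          have hy : ∀ i, (shift^[m] x) i ∈ unitDet E := fun i => by
            rw [shift_iterate_apply]; exact hx _
          show |⟪(y : E), (act (randProd (k n) (shift^[m] x))
            (act (randProd m x) v) : E)⟫| ≤ Real.exp (-(1 * (k n : ℝ)))
          rw [← act_mul (randProd_mem_unitDet hy (k n)) (randProd_mem_unitDet hx m),
            ← randProd_add, ← hm]
          exact hev.trans (Real.exp_le_exp.2 (by linarith))
      _ = ((blockLaw μ m).prod π) T := by
          rw [blockLaw, ← map_block μ m, Measure.map_apply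
            ((measurable_randProd m).prodMk (measurable_shift.iterate m)) hT]
      _ = ∫⁻ A, π {x | act (randProd (k n) x) (act A v) ∈ S} ∂(blockLaw μ m) :=
          Measure.prod_apply hT
      _ ≤ ∫⁻ _, ENNReal.ofReal (C * r ^ k n) ∂(blockLaw μ m) :=
          lintegral_mono fun A => hb (y, act A v) (k n)
      _ = _ := by rw [lintegral_const, measure_univ, mul_one]
  refine tendsto_of_tendsto_of_tendsto_of_le_of_le' tendsto_const_nhds ?_
    (.of_forall fun _ => zero_le) hbound
  rw [← ENNReal.ofReal_zero, ← mul_zero C]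
  exact ENNReal.tendsto_ofReal
    (((tendsto_pow_atTop_nhds_zero_of_lt_one hr.le hr1).comp hktop).const_mul C)

/-- **Almost sure growth of a coefficient.** -/
theorem ae_coefficient (hd : 2 ≤ finrank ℝ E) (hμ : ∀ᵐ A ∂μ, A ∈ unitDet E)
    (hsi : StronglyIrreducible μ.support) (hprox : Proximal μ.support) (hε : 0 < ε)
    (hexp : ExpMoment μ ε)
    (hγ : ∀ᵐ x ∂(Measure.infinitePi fun _ : ℕ => μ),
      Tendsto (fun n : ℕ => Real.log ‖randProd n x‖ / n) atTop (𝓝 γ))
    {y v : E} (hy : y ≠ 0) (hv : v ≠ 0) :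
    ∀ᵐ x ∂(Measure.infinitePi fun _ : ℕ => μ),
      (∀ᶠ n in atTop, ⟪y, randProd n x v⟫ ≠ 0) ∧
        Tendsto (fun n : ℕ => Real.log |⟪y, randProd n x v⟫| / n) atTop (𝓝 γ) := by
  set π := Measure.infinitePi fun _ : ℕ => μ
  set c := Real.log ‖y‖ + Real.log ‖v‖ with hc
  have hsmall : ∀ j : ℕ, ∀ᵐ x ∂π, ∀ᶠ n : ℕ in atTop,
      ¬ (⟪(dir y : E), randProd n x (dir v : E)⟫ = 0 ∨ (n : ℝ) * (1 / ((j : ℝ) + 1)) ≤
        |Real.log |⟪(dir y : E), randProd n x (dir v : E)⟫| - n * γ|) := by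
    intro j
    obtain ⟨C, r, hC, hr, hr1, hb⟩ :=
      decays_coefficient hd hμ hsi hprox hε hexp hγ (η := 1 / ((j : ℝ) + 1)) (by positivity)
    refine ae_eventually_notMem (s := fun n : ℕ =>
      {x | ⟪(dir y : E), randProd n x (dir v : E)⟫ = 0 ∨
      (n : ℝ) * (1 / ((j : ℝ) + 1)) ≤
        |Real.log |⟪(dir y : E), randProd n x (dir v : E)⟫| - n * γ|})
      (ne_top_of_le_ne_top ?_ (ENNReal.tsum_le_tsum fun n => hb (dir y, dir v) n))
    rw [← ENNReal.ofReal_tsum_of_nonneg (fun n => by positivity)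
      ((summable_geometric_of_lt_one hr.le hr1).mul_left C)]
    exact ENNReal.ofReal_ne_top
  filter_upwards [ae_all_iff.2 hsmall] with x hx
  have hy' := norm_ne_zero_iff.2 hy
  have hv' := norm_ne_zero_iff.2 hv
  have e : ∀ n, ⟪y, randProd n x v⟫ =
      ‖y‖ * ‖v‖ * ⟪(dir y : E), randProd n x (dir v : E)⟫ := fun n => by
    rw [coe_dir hy, coe_dir hv, map_smul, real_inner_smul_left, real_inner_smul_right]
    field_simp
  refine ⟨(hx 0).mono fun n hn => ?_, ?_⟩
  · rw [e]
    exact mul_ne_zero (mul_ne_zero hy' hv') fun h => hn (Or.inl h)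
  rw [Metric.tendsto_nhds]
  intro δ hδ
  obtain ⟨j, hj⟩ := exists_nat_one_div_lt (half_pos hδ)
  filter_upwards [hx j, eventually_gt_atTop 0,
    tendsto_natCast_atTop_atTop.eventually_gt_atTop (2 * |c| / δ)] with n hn hn0 hnc
  obtain ⟨hne, hlt⟩ := not_or.1 hn
  have hlt' := not_le.1 hlt
  have hn' : (0 : ℝ) < n := Nat.cast_pos.2 hn0
  rw [div_lt_iff₀ hδ] at hnc
  rw [e, abs_mul, abs_mul, abs_norm, abs_norm, Real.log_mul (mul_ne_zero hy' hv')
    (abs_ne_zero.2 hne), Real.log_mul hy' hv', Real.dist_eq, div_sub' hn'.ne', abs_div,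
    Nat.abs_cast, div_lt_iff₀ hn']
  refine lt_of_le_of_lt ?_ (show |c| + (n : ℝ) * (1 / ((j : ℝ) + 1)) < δ * n by
    have := mul_le_mul_of_nonneg_left hj.le hn'.le
    linarith)
  rw [← hc, add_sub_assoc]
  exact (abs_add_le _ _).trans (by linarith)

end FA.MatrixCoefficient
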